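/-
P-SS2 / SS2-A5 EISDVR (helper56), Mathlib only.

An Eisenstein extension of a discrete valuation ring is a discrete valuation ring:
`D` a DVR, `P ∈ D[T]` monic Eisenstein at the maximal ideal, `z` a root of `P` in a field `L ⊇ D`.
Then `S = D[z] = Algebra.adjoin D {z}` is a DVR with maximal ideal `(z)`, and `z ^ n` is a unit
times the uniformiser of `D` (`n = deg P`).
-/
import Mathlib

set_option autoImplicit false
set_option linter.style.haveILetI false
set_option linter.unusedSectionVars false

noncomputable section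

open Polynomial IsLocalRing

namespace Fermat.Agent.H56.SS2

section Eis

variable {D L : Type*} [CommRing D] [IsDomain D] [IsDiscreteValuationRing D] [Field L]
  [Algebra D L]

/-- the generator `z` as an element of `D[z]` -/
def eisGen (z : L) : Algebra.adjoin D {z} := ⟨z, Algebra.subset_adjoin (Set.mem_singleton z)⟩

@[simp]
theorem coe_eisGen (z : L) : ((eisGen (D := D) z : Algebra.adjoin D {z}) : L) = z := rfl

/-- every element of `D[z]` is a constant plus a multiple of `z` -/
theorem exists_eq_const_add_mul (z : L) (s : Algebra.adjoin D {z}) :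
    ∃ (d : D) (s' : Algebra.adjoin D {z}),
      s = algebraMap D (Algebra.adjoin D {z}) d + eisGen z * s' := by
  obtain ⟨s, hs⟩ := s
  rw [Algebra.adjoin_singleton_eq_range_aeval] at hs
  obtain ⟨p, rfl⟩ := hs
  refine ⟨p.coeff 0, ⟨aeval z p.divX, ?_⟩, ?_⟩
  · rw [Algebra.adjoin_singleton_eq_range_aeval]
    exact ⟨_, rfl⟩
  · apply Subtype.ext
    have h1 : p = C (p.coeff 0) + X * p.divX := by
      conv_lhs => rw [← Polynomial.divX_mul_X_add p]
      ring
    show aeval z p = algebraMap D L (p.coeff 0) + z * aeval z p.divX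
    conv_lhs => rw [h1]
    simp

variable {z : L} {P : D[X]}

/-- `z` is a root of `P` also in `D[z]` -/
theorem aeval_eisGen (hz : aeval z P = 0) : aeval (eisGen (D := D) z) P = 0 := by
  apply Subtype.ext
  rw [← Subalgebra.aeval_coe]
  exact hz

/-- `D[z]` is integral over `D` -/
theorem eis_isIntegral (hmonic : P.Monic) (hz : aeval z P = 0) :
    Algebra.IsIntegral D (Algebra.adjoin D {z}) := by
  refine Algebra.IsIntegral.adjoin ?_
  intro x hx
  rw [Set.mem_singleton_iff] at hx
  subst hx
  exact ⟨P, hmonic, hz⟩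

/-- `D[z]` is noetherian -/
theorem eis_isNoetherianRing : IsNoetherianRing (Algebra.adjoin D {z}) := by
  refine isNoetherianRing_of_fg ⟨{z}, ?_⟩
  rw [Finset.coe_singleton]

/-- (R1) `z ^ n ∈ 𝔪 D[z]` -/
theorem eis_pow_mem (hmonic : P.Monic) (hEis : P.IsEisensteinAt (maximalIdeal D))
    (hz : aeval z P = 0) :
    eisGen (D := D) z ^ P.natDegree ∈
      (maximalIdeal D).map (algebraMap D (Algebra.adjoin D {z})) := by
  refine hEis.isWeaklyEisensteinAt.pow_natDegree_le_of_aeval_zero_of_monic_mem_map
    (aeval_eisGen hz) hmonic _ ?_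
  exact Polynomial.natDegree_map_le

/-- (R2) `P(0) ∈ z D[z]` -/
theorem eis_coeff_zero_mem (hz : aeval z P = 0) :
    algebraMap D (Algebra.adjoin D {z}) (P.coeff 0) ∈
      Ideal.span {eisGen (D := D) z} := by
  have h0 := aeval_eisGen (D := D) hz
  have h1 : P = C (P.coeff 0) + X * P.divX := by
    conv_lhs => rw [← Polynomial.divX_mul_X_add P]
    ring
  rw [h1, map_add, aeval_C, map_mul, aeval_X] at h0
  rw [eq_neg_of_add_eq_zero_left h0]
  exact neg_mem (Ideal.mul_mem_right _ _ (Ideal.mem_span_singleton_self _))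

/-- the constant coefficient of an Eisenstein polynomial is a unit times a uniformiser -/
theorem eis_coeff_zero_eq (hEis : P.IsEisensteinAt (maximalIdeal D)) (hdeg : 0 < P.natDegree)
    {x : D} (hx : Irreducible x) : ∃ u : Dˣ, P.coeff 0 = x * u := by
  have hm : maximalIdeal D = Ideal.span {x} :=
    (IsDiscreteValuationRing.irreducible_iff_uniformizer x).mp hx
  have h1 : P.coeff 0 ∈ maximalIdeal D := hEis.mem hdeg
  rw [hm, Ideal.mem_span_singleton'] at h1
  obtain ⟨u, hu⟩ := h1
  have hunit : IsUnit u := by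
    by_contra hnu
    have h2 : u ∈ maximalIdeal D := (IsLocalRing.mem_maximalIdeal u).mpr hnu
    apply hEis.notMem
    rw [← hu, pow_two]
    refine Ideal.mul_mem_mul h2 ?_
    rw [hm]
    exact Ideal.mem_span_singleton_self x
  exact ⟨hunit.unit, by rw [IsUnit.unit_spec, ← hu, mul_comm]⟩

/-- `𝔪 D[z] ⊆ z D[z]` -/
theorem eis_map_le (hEis : P.IsEisensteinAt (maximalIdeal D)) (hdeg : 0 < P.natDegree)
    (hz : aeval z P = 0) :
    (maximalIdeal D).map (algebraMap D (Algebra.adjoin D {z})) ≤
      Ideal.span {eisGen (D := D) z} := by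
  obtain ⟨x, hx⟩ := IsDiscreteValuationRing.exists_irreducible D
  have hm : maximalIdeal D = Ideal.span {x} :=
    (IsDiscreteValuationRing.irreducible_iff_uniformizer x).mp hx
  obtain ⟨u, hu⟩ := eis_coeff_zero_eq hEis hdeg hx
  rw [Ideal.map_le_iff_le_comap, hm, Ideal.span_le, Set.singleton_subset_iff,
    SetLike.mem_coe, Ideal.mem_comap]
  have h1 : x = P.coeff 0 * ((u⁻¹ : Dˣ) : D) := by
    rw [hu, mul_assoc, Units.mul_inv, mul_one]
  rw [h1, map_mul]
  exact Ideal.mul_mem_right _ _ (eis_coeff_zero_mem hz)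

theorem eis_natDegree_pos (hmonic : P.Monic) (hz : aeval z P = 0) : 0 < P.natDegree := by
  by_contra h
  have h0 : P.natDegree = 0 := by omega
  have h1 : P = 1 := by
    have := Polynomial.eq_C_of_natDegree_eq_zero h0
    rw [this, ← h0, ← Polynomial.leadingCoeff, hmonic.leadingCoeff, map_one]
  rw [h1, map_one] at hz
  exact one_ne_zero hz

/-- `z ≠ 0` in `D[z]` -/
theorem eisGen_ne_zero (hinj : Function.Injective (algebraMap D L)) (hmonic : P.Monic)
    (hEis : P.IsEisensteinAt (maximalIdeal D)) (hz : aeval z P = 0) :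
    eisGen (D := D) z ≠ 0 := by
  intro h0
  obtain ⟨x, hx⟩ := IsDiscreteValuationRing.exists_irreducible D
  have hm : maximalIdeal D = Ideal.span {x} :=
    (IsDiscreteValuationRing.irreducible_iff_uniformizer x).mp hx
  have h1 : algebraMap D (Algebra.adjoin D {z}) x ∈ Ideal.span {eisGen (D := D) z} := by
    apply eis_map_le hEis (eis_natDegree_pos hmonic hz) hz
    refine Ideal.mem_map_of_mem _ ?_
    rw [hm]
    exact Ideal.mem_span_singleton_self x
  rw [Ideal.span_singleton_eq_bot.mpr h0, Ideal.mem_bot] at h1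
  have h2 : algebraMap D L x = 0 := by
    have := congrArg (Subtype.val) h1
    exact this
  exact hx.ne_zero (hinj (h2.trans (map_zero _).symm))

/-- every maximal ideal of `D[z]` is `(z)` -/
theorem eis_maximal_eq (hmonic : P.Monic) (hEis : P.IsEisensteinAt (maximalIdeal D))
    (hz : aeval z P = 0) (M : Ideal (Algebra.adjoin D {z})) (hM : M.IsMaximal) :
    M = Ideal.span {eisGen (D := D) z} := by
  haveI := eis_isIntegral hmonic hz
  have hdeg := eis_natDegree_pos hmonic hz
  have hcomap : M.comap (algebraMap D (Algebra.adjoin D {z})) = maximalIdeal D :=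
    IsLocalRing.eq_maximalIdeal (Ideal.isMaximal_comap_of_isIntegral_of_isMaximal M)
  have hmapM : (maximalIdeal D).map (algebraMap D (Algebra.adjoin D {z})) ≤ M := by
    rw [Ideal.map_le_iff_le_comap, hcomap]
  have hzM : eisGen (D := D) z ∈ M :=
    hM.isPrime.mem_of_pow_mem _ (hmapM (eis_pow_mem hmonic hEis hz))
  refine le_antisymm ?_ ?_
  · intro s hs
    obtain ⟨d, s', hd⟩ := exists_eq_const_add_mul z s
    have h1 : algebraMap D (Algebra.adjoin D {z}) d ∈ M := by
      have : algebraMap D (Algebra.adjoin D {z}) d = s - eisGen z * s' := by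
        rw [hd]; ring
      rw [this]
      exact sub_mem hs (Ideal.mul_mem_right _ _ hzM)
    have h2 : d ∈ maximalIdeal D := by
      rw [← hcomap]
      exact h1
    rw [hd]
    refine add_mem (eis_map_le hEis hdeg hz (Ideal.mem_map_of_mem _ h2)) ?_
    exact Ideal.mul_mem_right _ _ (Ideal.mem_span_singleton_self _)
  · rw [Ideal.span_le, Set.singleton_subset_iff]
    exact hzM

/-- `(z)` is a maximal ideal of `D[z]` -/
theorem eis_span_isMaximal (hmonic : P.Monic) (hEis : P.IsEisensteinAt (maximalIdeal D))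
    (hz : aeval z P = 0) : (Ideal.span {eisGen (D := D) z}).IsMaximal := by
  obtain ⟨M, hM⟩ := Ideal.exists_maximal (Algebra.adjoin D {z})
  rw [← eis_maximal_eq hmonic hEis hz M hM]
  exact hM

/-- **`D[z]` is a local ring.** -/
theorem eis_isLocalRing (hmonic : P.Monic) (hEis : P.IsEisensteinAt (maximalIdeal D))
    (hz : aeval z P = 0) : IsLocalRing (Algebra.adjoin D {z}) :=
  IsLocalRing.of_unique_max_ideal ⟨_, eis_span_isMaximal hmonic hEis hz,
    fun M hM => eis_maximal_eq hmonic hEis hz M hM⟩

/-- **the maximal ideal of `D[z]` is `(z)`.** -/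
theorem eis_maximalIdeal [IsLocalRing (Algebra.adjoin D {z})] (hmonic : P.Monic)
    (hEis : P.IsEisensteinAt (maximalIdeal D)) (hz : aeval z P = 0) :
    maximalIdeal (Algebra.adjoin D {z}) = Ideal.span {eisGen (D := D) z} :=
  eis_maximal_eq hmonic hEis hz _ (maximalIdeal.isMaximal _)

/-- **`D[z]` is a discrete valuation ring.** -/
theorem eis_isDVR (hinj : Function.Injective (algebraMap D L)) (hmonic : P.Monic)
    (hEis : P.IsEisensteinAt (maximalIdeal D)) (hz : aeval z P = 0) :
    IsDiscreteValuationRing (Algebra.adjoin D {z}) := by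
  haveI := eis_isLocalRing hmonic hEis hz
  haveI : IsNoetherianRing (Algebra.adjoin D {z}) := eis_isNoetherianRing
  have hmax := eis_maximalIdeal hmonic hEis hz
  have hnf : ¬ IsField (Algebra.adjoin D {z}) := by
    rw [IsLocalRing.isField_iff_maximalIdeal_eq, hmax, Ideal.span_singleton_eq_bot]
    exact eisGen_ne_zero hinj hmonic hEis hz
  refine ((IsDiscreteValuationRing.TFAE (Algebra.adjoin D {z}) hnf).out 0 4).mpr ?_
  rw [hmax]
  exact ⟨⟨_, rfl⟩⟩

end Eis

end Fermat.Agent.H56.SS2
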