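/-
P-SS2 / SS2-A5 EISDVR, part 2 (helper56), Mathlib only.

* `eis_pow_eq` : in `D[z]` (Eisenstein), `z ^ n = x * (unit)` for every uniformiser `x` of `D`;
* `eis_irreducible` : `z` is a uniformiser of `D[z]`;
* `dvr_maximal_subring` : a DVR is a maximal proper subring of its fraction field.
-/
import Fermat.Agent.H56.SS2.EisDVR

set_option autoImplicit false
set_option linter.style.haveILetI false
set_option linter.unusedSectionVars false

noncomputable section

open Polynomial IsLocalRing

namespace Fermat.Agent.H56.SS2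

section Eis2

variable {D L : Type*} [CommRing D] [IsDomain D] [IsDiscreteValuationRing D] [Field L]
  [Algebra D L] {z : L} {P : D[X]}

/-- a polynomial with coefficients in an ideal `I` takes values in `I S` -/
theorem aeval_mem_map_of_coeff_mem {R S : Type*} [CommRing R] [CommRing S] [Algebra R S]
    (I : Ideal R) (T : R[X]) (hT : ∀ i, T.coeff i ∈ I) (s : S) :
    aeval s T ∈ I.map (algebraMap R S) := by
  have h1 : T ∈ Ideal.map (C : R →+* R[X]) I := Ideal.mem_map_C_iff.mpr hT
  have h2 := Ideal.mem_map_of_mem ((aeval s : R[X] →ₐ[R] S) : R[X] →+* S) h1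
  rw [Ideal.map_map] at h2
  have h3 : ((aeval s : R[X] →ₐ[R] S) : R[X] →+* S).comp (C : R →+* R[X]) =
      algebraMap R S := by
    ext r
    simp
  rw [h3] at h2
  exact h2

/-- the coefficients of `P - X ^ n` lie in the maximal ideal -/
theorem eis_coeff_sub_mem (hmonic : P.Monic) (hEis : P.IsEisensteinAt (maximalIdeal D))
    (i : ℕ) : (P - X ^ P.natDegree).coeff i ∈ maximalIdeal D := by
  rw [coeff_sub, coeff_X_pow]
  rcases lt_trichotomy i P.natDegree with h | h | h
  · rw [if_neg (ne_of_lt h), sub_zero]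
    exact hEis.mem h
  · rw [if_pos h, h, hmonic.coeff_natDegree, sub_self]
    exact zero_mem _
  · rw [if_neg (ne_of_gt h), sub_zero, coeff_eq_zero_of_natDegree_lt h]
    exact zero_mem _

/-- **`z ^ n = x * unit`** -/
theorem eis_pow_eq [IsLocalRing (Algebra.adjoin D {z})] (hmonic : P.Monic)
    (hEis : P.IsEisensteinAt (maximalIdeal D)) (hz : aeval z P = 0) {x : D}
    (hx : Irreducible x) :
    ∃ u : (Algebra.adjoin D {z})ˣ,
      eisGen (D := D) z ^ P.natDegree = algebraMap D (Algebra.adjoin D {z}) x * u := by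
  have hdeg := eis_natDegree_pos hmonic hz
  have hm : maximalIdeal D = Ideal.span {x} :=
    (IsDiscreteValuationRing.irreducible_iff_uniformizer x).mp hx
  obtain ⟨u₀, hu₀⟩ := eis_coeff_zero_eq hEis hdeg hx
  have hmax := eis_maximalIdeal hmonic hEis hz
  -- `T = P - X ^ n = X * T.divX + C (P.coeff 0)`
  have hT0 : (P - X ^ P.natDegree).coeff 0 = P.coeff 0 := by
    rw [coeff_sub, coeff_X_pow, if_neg (ne_of_lt hdeg), sub_zero]
  have hTdec : P - X ^ P.natDegree =
      (P - X ^ P.natDegree).divX * X + C (P.coeff 0) := by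
    conv_lhs => rw [← Polynomial.divX_mul_X_add (P - X ^ P.natDegree), hT0]
  have hρ : aeval (eisGen (D := D) z) (P - X ^ P.natDegree).divX ∈
      (maximalIdeal D).map (algebraMap D (Algebra.adjoin D {z})) :=
    aeval_mem_map_of_coeff_mem _ _ (fun i => by
      rw [coeff_divX]
      exact eis_coeff_sub_mem hmonic hEis (i + 1)) _
  rw [hm, Ideal.map_span, Set.image_singleton, Ideal.mem_span_singleton'] at hρ
  obtain ⟨ρ', hρ'⟩ := hρ
  have h0 := aeval_eisGen (D := D) hz
  have h1 : aeval (eisGen (D := D) z) (P - X ^ P.natDegree) =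
      -eisGen (D := D) z ^ P.natDegree := by
    rw [map_sub, h0, zero_sub, map_pow, aeval_X]
  rw [hTdec, map_add, map_mul, aeval_X, aeval_C, ← hρ', hu₀, map_mul] at h1
  -- the unit
  have hunit : IsUnit (-(algebraMap D (Algebra.adjoin D {z}) (u₀ : D) +
      ρ' * eisGen (D := D) z)) := by
    rw [IsUnit.neg_iff]
    have h2 : IsUnit (algebraMap D (Algebra.adjoin D {z}) (u₀ : D)) :=
      u₀.isUnit.map _
    have h3 : ρ' * eisGen (D := D) z ∈ maximalIdeal (Algebra.adjoin D {z}) := by
      rw [hmax]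
      exact Ideal.mul_mem_left _ _ (Ideal.mem_span_singleton_self _)
    by_contra hnu
    have h4 : algebraMap D (Algebra.adjoin D {z}) (u₀ : D) + ρ' * eisGen (D := D) z ∈
        maximalIdeal (Algebra.adjoin D {z}) := (IsLocalRing.mem_maximalIdeal _).mpr hnu
    have h5 : algebraMap D (Algebra.adjoin D {z}) (u₀ : D) ∈
        maximalIdeal (Algebra.adjoin D {z}) := by
      have := sub_mem h4 h3
      rwa [add_sub_cancel_right] at this
    exact (IsLocalRing.mem_maximalIdeal _).mp h5 h2
  refine ⟨hunit.unit, ?_⟩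
  rw [IsUnit.unit_spec]
  have h6 : eisGen (D := D) z ^ P.natDegree =
      -(ρ' * algebraMap D (Algebra.adjoin D {z}) x * eisGen (D := D) z +
        algebraMap D (Algebra.adjoin D {z}) x * algebraMap D (Algebra.adjoin D {z}) (u₀ : D)) := by
    rw [h1, neg_neg]
  rw [h6]
  ring

/-- **`z` is a uniformiser of `D[z]`** -/
theorem eis_irreducible (hinj : Function.Injective (algebraMap D L)) (hmonic : P.Monic)
    (hEis : P.IsEisensteinAt (maximalIdeal D)) (hz : aeval z P = 0) :
    Irreducible (eisGen (D := D) z) := by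
  haveI := eis_isDVR hinj hmonic hEis hz
  exact (IsDiscreteValuationRing.irreducible_iff_uniformizer _).mpr
    (eis_maximalIdeal hmonic hEis hz)

end Eis2

section Maximal

variable {V E : Type*} [CommRing V] [IsDomain V] [IsDiscreteValuationRing V] [Field E]
  [Algebra V E] [IsFractionRing V E]

/-- **A DVR is a maximal proper subring of its fraction field.** -/
theorem dvr_maximal_subring (B : Subring E) (hB : (algebraMap V E).range ≤ B) :
    B = (algebraMap V E).range ∨ B = ⊤ := by
  by_cases h : B ≤ (algebraMap V E).range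
  · exact Or.inl (le_antisymm h hB)
  right
  obtain ⟨b, hbB, hbV⟩ := SetLike.not_le_iff_exists.mp h
  obtain ⟨π, hπ⟩ := IsDiscreteValuationRing.exists_irreducible V
  have hb0 : b ≠ 0 := by
    rintro rfl
    exact hbV (Subring.zero_mem _)
  have hVB : ∀ v : V, algebraMap V E v ∈ B := fun v => hB ⟨v, rfl⟩
  have hπ0 : algebraMap V E π ≠ 0 := by
    intro h0
    exact hπ.ne_zero ((IsFractionRing.injective V E) (h0.trans (map_zero _).symm))
  obtain ⟨m, u, hu⟩ :=
    IsDiscreteValuationRing.exists_units_eq_smul_zpow_of_irreducible (K := E) hπ hb0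
  rw [Units.smul_def, Algebra.smul_def] at hu
  -- `m < 0`
  have hm : m < 0 := by
    by_contra hm
    rw [not_lt] at hm
    obtain ⟨k, rfl⟩ := Int.eq_ofNat_of_zero_le hm
    apply hbV
    rw [hu, zpow_natCast, ← map_pow, ← map_mul]
    exact ⟨_, rfl⟩
  -- `π⁻¹ ∈ B`
  have hinv : (algebraMap V E π)⁻¹ ∈ B := by
    obtain ⟨k, hk⟩ : ∃ k : ℕ, m = -((k : ℤ) + 1) := ⟨(-m - 1).toNat, by omega⟩
    have h1 : (algebraMap V E π)⁻¹ =
        algebraMap V E ((u⁻¹ : Vˣ) : V) * b * (algebraMap V E π) ^ k := by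
      rw [hu, hk, zpow_neg, zpow_add_one₀ hπ0, zpow_natCast]
      have h2 : algebraMap V E ((u⁻¹ : Vˣ) : V) * algebraMap V E (u : V) = 1 := by
        rw [← map_mul, Units.inv_mul, map_one]
      have h3 : (algebraMap V E π) ^ k ≠ 0 := pow_ne_zero _ hπ0
      have h4 : algebraMap V E ((u⁻¹ : Vˣ) : V) *
          (algebraMap V E (u : V) * ((algebraMap V E π) ^ k * algebraMap V E π)⁻¹) *
            (algebraMap V E π) ^ k =
          (algebraMap V E ((u⁻¹ : Vˣ) : V) * algebraMap V E (u : V)) *
            (((algebraMap V E π) ^ k)⁻¹ * (algebraMap V E π) ^ k) * (algebraMap V E π)⁻¹ := by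
        rw [mul_inv]
        ring
      rw [h4, h2, inv_mul_cancel₀ h3, one_mul, one_mul]
    rw [h1]
    exact B.mul_mem (B.mul_mem (hVB _) hbB) (B.pow_mem (hVB _) _)
  rw [eq_top_iff]
  intro e _
  rcases eq_or_ne e 0 with rfl | he
  · exact B.zero_mem
  obtain ⟨m', u', hu'⟩ :=
    IsDiscreteValuationRing.exists_units_eq_smul_zpow_of_irreducible (K := E) hπ he
  rw [Units.smul_def, Algebra.smul_def] at hu'
  rw [hu']
  refine B.mul_mem (hVB _) ?_
  rcases le_or_gt 0 m' with h0 | h0
  · obtain ⟨k, rfl⟩ := Int.eq_ofNat_of_zero_le h0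
    rw [zpow_natCast]
    exact B.pow_mem (hVB _) _
  · obtain ⟨k, hk⟩ : ∃ k : ℕ, m' = -(k : ℤ) := ⟨(-m').toNat, by omega⟩
    rw [hk, zpow_neg, zpow_natCast, ← inv_pow]
    exact B.pow_mem hinv _

end Maximal

end Fermat.Agent.H56.SS2
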